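import Mathlib.RingTheory.Regular.Free
import Mathlib.RingTheory.Regular.RegularSequence
import Mathlib.RingTheory.Ideal.AssociatedPrime.Finiteness
import Mathlib.RingTheory.LocalRing.MaximalIdeal.Square
import Mathlib.RingTheory.LocalRing.RingHom.Basic
import Mathlib.RingTheory.Ideal.Quotient.Noetherian
import Mathlib.LinearAlgebra.FreeModule.Basic
import Mathlib.LinearAlgebra.Basis.VectorSpace

/-!
# Modules of maximal depth over a regular local ring are free (elementary version)

`Fermat.Agent.S57.H51.free_of_isWeaklyRegular`: let `A` be a Noetherian local ring whose maximal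
ideal is generated by a finite set `S`, and `N` a finitely generated `A`-module admitting a weakly
regular sequence inside the maximal ideal of length at least `S.card`.  Then `N` is free.

The proof uses only prime avoidance, permutability of regular sequences over local rings and
the lifting of freeness along a regular element.
-/

set_option autoImplicit false

namespace Fermat.Agent.S57.H51

open RingTheory.Sequence IsLocalRing

universe u v

/-- Prime avoidance: if some element of the maximal ideal is `N`-regular (with `N` nontrivial and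
finite), then there is an `N`-regular element of the maximal ideal outside its square. -/
theorem exists_regular_not_mem_sq {A : Type u} [CommRing A] [IsLocalRing A] [IsNoetherianRing A]
    {N : Type v} [AddCommGroup N] [Module A N] [Module.Finite A N] [Nontrivial N]
    {y : A} (hy : y ∈ maximalIdeal A) (hreg : IsSMulRegular N y) :
    ∃ x ∈ maximalIdeal A, x ∉ (maximalIdeal A) ^ 2 ∧ IsSMulRegular N x := by
  by_contra hcon
  replace hcon : ∀ x ∈ maximalIdeal A, x ∉ (maximalIdeal A) ^ 2 → ¬ IsSMulRegular N x :=
    fun x hx hx2 hr => hcon ⟨x, hx, hx2, hr⟩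
  have hfin : (insert ((maximalIdeal A) ^ 2) (associatedPrimes A N)).Finite :=
    (associatedPrimes.finite A N).insert _
  have hsub : ((maximalIdeal A : Ideal A) : Set A) ⊆
      ⋃ i ∈ insert ((maximalIdeal A) ^ 2) (associatedPrimes A N), ((id i : Ideal A) : Set A) := by
    intro x hx
    by_cases hx2 : x ∈ (maximalIdeal A) ^ 2
    · exact Set.mem_biUnion (Set.mem_insert _ _) hx2
    · have hnr : ¬ IsSMulRegular N x := hcon x hx hx2
      have hxu : x ∈ ⋃ p ∈ associatedPrimes A N, ((p : Ideal A) : Set A) := by
        rw [biUnion_associatedPrimes_eq_compl_regular A N]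
        exact hnr
      obtain ⟨p, hp, hxp⟩ := Set.mem_iUnion₂.mp hxu
      exact Set.mem_biUnion (Set.mem_insert_of_mem _ hp) hxp
  obtain ⟨i, hi, hle⟩ := (Ideal.subset_union_prime_finite hfin (f := id)
    ((maximalIdeal A) ^ 2) ((maximalIdeal A) ^ 2) (by
      intro i hi h1 _
      rcases hi with rfl | hi
      · exact absurd rfl h1
      · exact hi.isPrime)).mp hsub
  rcases hi with rfl | hi
  · -- `m ≤ m ^ 2` forces `A` to be a field, so `y = 0`
    have hfield : IsField A := by
      by_contra hnf
      exact absurd hle (not_le_of_gt ((IsLocalRing.maximalIdeal_sq_lt_maximalIdeal A).mpr hnf))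
    have hbot : maximalIdeal A = ⊥ := IsLocalRing.isField_iff_maximalIdeal_eq.mp hfield
    have hy0 : y = 0 := by simpa [hbot] using hy
    rw [hy0, IsSMulRegular.zero_iff_subsingleton] at hreg
    exact not_subsingleton N hreg
  · have hyp : y ∈ ⋃ p ∈ associatedPrimes A N, ((p : Ideal A) : Set A) :=
      Set.mem_biUnion hi (hle hy)
    rw [biUnion_associatedPrimes_eq_compl_regular A N] at hyp
    exact hyp hreg

/-- Exchange of generators: an element of the maximal ideal outside its square can replace one of
the elements of any finite generating set of the maximal ideal. -/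
theorem exists_span_insert_eq {A : Type u} [CommRing A] [IsLocalRing A] (S : Finset A)
    (hS : Ideal.span (S : Set A) = maximalIdeal A) {x : A} (hx : x ∈ maximalIdeal A)
    (hx2 : x ∉ (maximalIdeal A) ^ 2) :
    ∃ T : Finset A, T.card + 1 ≤ S.card ∧
      Ideal.span (insert x (T : Set A)) = maximalIdeal A := by
  classical
  have hxS : x ∈ Submodule.span A (S : Set A) := by
    have : x ∈ Ideal.span (S : Set A) := hS ▸ hx
    exact this
  obtain ⟨f, -, hf⟩ := Submodule.mem_span_finset.mp hxS
  have hSm : ∀ s ∈ S, s ∈ maximalIdeal A := fun s hs => hS ▸ Ideal.subset_span hs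
  -- some coefficient is a unit
  have hex : ∃ j ∈ S, IsUnit (f j) := by
    by_contra hno
    replace hno : ∀ j ∈ S, ¬ IsUnit (f j) := fun j hj hu => hno ⟨j, hj, hu⟩
    apply hx2
    rw [← hf, pow_two]
    refine Ideal.sum_mem _ fun s hs => ?_
    rw [smul_eq_mul]
    exact Ideal.mul_mem_mul ((IsLocalRing.mem_maximalIdeal _).mpr (hno s hs)) (hSm s hs)
  obtain ⟨j, hj, hu⟩ := hex
  refine ⟨S.erase j, ?_, ?_⟩
  · rw [Finset.card_erase_add_one hj]
  · apply le_antisymm
    · rw [Ideal.span_le]
      intro z hz
      rcases hz with rfl | hz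
      · exact hx
      · exact hSm z (Finset.mem_of_mem_erase hz)
    · rw [← hS, Ideal.span_le]
      intro s hs
      by_cases hsj : s = j
      · subst hsj
        -- `f s * s = x - ∑_{t ≠ s} f t * t`
        have hsum : f s • s + ∑ a ∈ S.erase s, f a • a = x := by
          rw [← hf, Finset.add_sum_erase S (fun a => f a • a) hs]
        have hmem : f s * s ∈ Ideal.span (insert x ((S.erase s : Finset A) : Set A)) := by
          have : f s * s = x - ∑ a ∈ S.erase s, f a • a := by
            rw [← hsum]; simp [smul_eq_mul]
          rw [this]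
          refine Ideal.sub_mem _ (Ideal.subset_span (Set.mem_insert _ _)) ?_
          refine Ideal.sum_mem _ fun a ha => ?_
          rw [smul_eq_mul]
          exact Ideal.mul_mem_left _ _ (Ideal.subset_span (Set.mem_insert_of_mem _ ha))
        obtain ⟨g, hg⟩ := hu.exists_left_inv
        have h3 := Ideal.mul_mem_left _ g hmem
        rwa [← mul_assoc, hg, one_mul] at h3
      · exact Ideal.subset_span (Set.mem_insert_of_mem _ (Finset.mem_erase.mpr ⟨hsj, hs⟩))

/-- Main induction. -/
theorem free_of_isWeaklyRegular_aux (n : ℕ) :
    ∀ (A : Type u) [CommRing A] [IsLocalRing A] [IsNoetherianRing A]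
      (N : Type v) [AddCommGroup N] [Module A N] [Module.Finite A N]
      (S : Finset A) (_ : Ideal.span (S : Set A) = maximalIdeal A)
      (rs : List A) (_ : ∀ a ∈ rs, a ∈ maximalIdeal A)
      (_ : IsWeaklyRegular N rs) (_ : S.card ≤ rs.length) (_ : rs.length = n),
      Module.Free A N := by
  induction n with
  | zero =>
    intro A _ _ _ N _ _ _ S hS rs _ _ hlen hn
    have hS0 : S = ∅ := by
      rw [← Finset.card_eq_zero]; omega
    have hbot : maximalIdeal A = ⊥ := by
      rw [← hS, hS0]; simp
    have hfield : IsField A := IsLocalRing.isField_iff_maximalIdeal_eq.mpr hbot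
    let _ := hfield.toField
    exact Module.Free.of_divisionRing A N
  | succ n ih =>
    intro A _ _ _ N _ _ _ S hS rs hmem hreg hlen hn
    rcases subsingleton_or_nontrivial N with hsub | hnt
    · exact Module.Free.of_subsingleton A N
    have hne : rs ≠ [] := by
      intro h; rw [h] at hn; simp at hn
    obtain ⟨rs', y, rfl⟩ : ∃ rs' y, rs = rs' ++ [y] :=
      ⟨rs.dropLast, rs.getLast hne, (List.dropLast_append_getLast hne).symm⟩
    have hlen' : rs'.length = n := by simpa using hn
    have hmem' : ∀ a ∈ rs', a ∈ maximalIdeal A := fun a ha =>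
      hmem a (List.mem_append_left _ ha)
    have hy : y ∈ maximalIdeal A := hmem y (by simp)
    obtain ⟨hreg', hregy⟩ := (isWeaklyRegular_append_iff N rs' [y]).mp hreg
    rw [isWeaklyRegular_singleton_iff] at hregy
    -- the quotient `N ⧸ (rs') N` is nontrivial and finite
    have : Nontrivial (N ⧸ (Ideal.ofList rs' • ⊤ : Submodule A N)) :=
      (IsRegular.of_isWeaklyRegular_of_mem_maximalIdeal N hmem' hreg').quot_ofList_smul_nontrivial ⊤
    obtain ⟨x, hx, hx2, hxreg⟩ := exists_regular_not_mem_sq hy hregy
    -- `x :: rs'` is weakly regular on `N`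
    have hreg1 : IsWeaklyRegular N (rs' ++ [x]) :=
      (isWeaklyRegular_append_iff N rs' [x]).mpr
        ⟨hreg', (isWeaklyRegular_singleton_iff _ x).mpr hxreg⟩
    have hmem1 : ∀ a ∈ rs' ++ [x], a ∈ maximalIdeal A := by
      intro a ha
      rcases List.mem_append.mp ha with ha | ha
      · exact hmem' a ha
      · rw [List.mem_singleton] at ha; exact ha ▸ hx
    have hreg2 : IsWeaklyRegular N (x :: rs') :=
      IsLocalRing.isWeaklyRegular_of_perm_of_subset_maximalIdeal hreg1
        (List.perm_append_singleton x rs') hmem1
    obtain ⟨hxN, hregq⟩ := (isWeaklyRegular_cons_iff' N x rs').mp hreg2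
    -- the quotient ring
    have hxtop : Ideal.span {x} ≠ (⊤ : Ideal A) := by
      intro h
      have h1 : (1 : A) ∈ Ideal.span {x} := h ▸ Submodule.mem_top
      have : (1 : A) ∈ maximalIdeal A :=
        (Ideal.span_le.mpr (Set.singleton_subset_iff.mpr hx)) h1
      exact (Ideal.ne_top_iff_one _).mp (IsLocalRing.maximalIdeal.isMaximal A).ne_top this
    have : Nontrivial (A ⧸ Ideal.span {x}) := Ideal.Quotient.nontrivial_iff.mpr hxtop
    have : IsLocalRing (A ⧸ Ideal.span {x}) :=
      IsLocalRing.of_surjective' (Ideal.Quotient.mk (Ideal.span {x})) Ideal.Quotient.mk_surjective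
    have : Module.Finite (A ⧸ Ideal.span {x}) (QuotSMulTop x N) :=
      Module.Finite.of_restrictScalars_finite A (A ⧸ Ideal.span {x}) (QuotSMulTop x N)
    obtain ⟨T, hTcard, hT⟩ := exists_span_insert_eq S hS hx hx2
    classical
    have hmax : Ideal.span ((T.image (Ideal.Quotient.mk (Ideal.span {x})) : Finset _) : Set _) =
        maximalIdeal (A ⧸ Ideal.span {x}) := by
      rw [← IsLocalRing.map_maximalIdeal_of_surjective (Ideal.Quotient.mk (Ideal.span {x}))
        Ideal.Quotient.mk_surjective, ← hT, Ideal.map_span, Finset.coe_image, Set.image_insert_eq]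
      have h0 : (Ideal.Quotient.mk (Ideal.span {x})) x = 0 :=
        Ideal.Quotient.eq_zero_iff_mem.mpr (Ideal.subset_span (Set.mem_singleton x))
      rw [h0]
      apply le_antisymm
      · exact Ideal.span_mono (Set.subset_insert _ _)
      · rw [Ideal.span_le]
        intro z hz
        rcases hz with rfl | hz
        · exact Ideal.zero_mem _
        · exact Ideal.subset_span hz
    have hfree : Module.Free (A ⧸ Ideal.span {x}) (QuotSMulTop x N) := by
      refine ih (A ⧸ Ideal.span {x}) (QuotSMulTop x N)
        (T.image (Ideal.Quotient.mk (Ideal.span {x}))) hmax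
        (rs'.map (Ideal.Quotient.mk (Ideal.span {x}))) ?_ hregq ?_ (by simpa using hlen')
      · intro a ha
        obtain ⟨b, hb, rfl⟩ := List.mem_map.mp ha
        rw [← IsLocalRing.map_maximalIdeal_of_surjective (Ideal.Quotient.mk (Ideal.span {x}))
          Ideal.Quotient.mk_surjective]
        exact Ideal.mem_map_of_mem _ (hmem' b hb)
      · have h1 : (T.image (Ideal.Quotient.mk (Ideal.span {x}))).card ≤ T.card :=
          Finset.card_image_le
        have h2 : S.card ≤ n + 1 := by
          have := hlen; simp at this; omega
        simp only [List.length_map]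
        omega
    have : Module.FinitePresentation A N := Module.finitePresentation_of_finite A N
    have hjac : x ∈ (⊥ : Ideal A).jacobson := by
      rw [IsLocalRing.jacobson_eq_maximalIdeal ⊥ bot_ne_top]; exact hx
    exact (Module.free_quotSMulTop_iff_free A N hjac hxN).mp hfree

/-- Let `A` be a Noetherian local ring whose maximal ideal is generated by a finite set `S`, and
let `N` be a finitely generated `A`-module admitting a weakly regular sequence `rs` inside the
maximal ideal with `S.card ≤ rs.length`.  Then `N` is free. -/
theorem free_of_isWeaklyRegular {A : Type u} [CommRing A] [IsLocalRing A] [IsNoetherianRing A]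
    {N : Type v} [AddCommGroup N] [Module A N] [Module.Finite A N]
    (S : Finset A) (hS : Ideal.span (S : Set A) = maximalIdeal A)
    (rs : List A) (hmem : ∀ a ∈ rs, a ∈ maximalIdeal A)
    (hreg : IsWeaklyRegular N rs) (hlen : S.card ≤ rs.length) : Module.Free A N :=
  free_of_isWeaklyRegular_aux rs.length A N S hS rs hmem hreg hlen rfl

end Fermat.Agent.S57.H51
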