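import Mathlib.RingTheory.MvPowerSeries.Inverse
import Mathlib.RingTheory.Regular.RegularSequence
import Mathlib.RingTheory.Regular.IsSMulRegular

/-!
# The variables (and a uniformizer) form a regular sequence on a power series ring

`xList 𝒪 r ϖ = [X 0, …, X (r-1), C ϖ]` in `MvPowerSeries (Fin r) 𝒪`.

* `mem_span_X_image_iff`: membership in the ideal generated by a finite set of variables
* `isWeaklyRegular_xList`: the list is a weakly regular sequence (`𝒪` a domain, `ϖ ≠ 0`)
* `ofList_xList_eq_maximalIdeal`: it generates the maximal ideal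
  (`𝒪` local with maximal ideal `(ϖ)`)
-/

set_option autoImplicit false

namespace Fermat.Agent.S57.H90

open MvPowerSeries

section span

variable {σ : Type} {R : Type} [CommRing R]

/-- coefficients of an element of the ideal generated by variables in `s` vanish on monomials
not involving `s`. -/
theorem coeff_eq_zero_of_mem_span_X (s : Set σ) {f : MvPowerSeries σ R}
    (hf : f ∈ Ideal.span ((fun j : σ => (X j : MvPowerSeries σ R)) '' s))
    (m : σ →₀ ℕ) (hm : ∀ j ∈ s, m j = 0) : coeff m f = 0 := by
  classical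
  induction hf using Submodule.span_induction generalizing m with
  | mem x hx =>
    obtain ⟨j, hj, rfl⟩ := hx
    rw [coeff_X, if_neg]
    intro h
    have := hm j hj
    rw [h] at this
    simp at this
  | zero => simp
  | add x y _ _ hx hy => rw [map_add, hx m hm, hy m hm, add_zero]
  | smul a x _ hx =>
    rw [smul_eq_mul, coeff_mul]
    refine Finset.sum_eq_zero fun p hp => ?_
    rw [Finset.mem_antidiagonal] at hp
    have : ∀ j ∈ s, p.2 j = 0 := by
      intro j hj
      have h1 := hm j hj
      rw [← hp] at h1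
      simp only [Finsupp.coe_add, Pi.add_apply, Nat.add_eq_zero_iff] at h1
      exact h1.2
    rw [hx p.2 this, mul_zero]

/-- the "quotient by `X a`" of a power series. -/
noncomputable def divX (a : σ) (f : MvPowerSeries σ R) : MvPowerSeries σ R :=
  fun m => coeff (m + Finsupp.single a 1) f

theorem coeff_divX (a : σ) (f : MvPowerSeries σ R) (m : σ →₀ ℕ) :
    coeff m (divX a f) = coeff (m + Finsupp.single a 1) f := rfl

theorem coeff_X_mul_divX (a : σ) (f : MvPowerSeries σ R) (m : σ →₀ ℕ) :
    coeff m (X a * divX a f) = if m a = 0 then 0 else coeff m f := by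
  classical
  rw [X_def, coeff_monomial_mul, one_mul]
  by_cases h : m a = 0
  · rw [if_pos h, if_neg]
    intro hle
    have := hle a
    simp [h] at this
  · rw [if_neg h, if_pos, coeff_divX]
    · have hm : m - Finsupp.single a 1 + Finsupp.single a 1 = m := by
        ext j
        by_cases hj : j = a
        · subst hj
          simp only [Finsupp.coe_add, Finsupp.coe_tsub, Pi.add_apply, Pi.sub_apply,
            Finsupp.single_eq_same]
          omega
        · simp [Finsupp.single_eq_of_ne hj]
      rw [hm]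
    · intro j
      by_cases hj : j = a
      · subst hj
        simp only [Finsupp.single_eq_same]
        omega
      · simp [Finsupp.single_eq_of_ne hj]

theorem mem_span_X_of_coeff_eq_zero [DecidableEq σ] (s : Finset σ) :
    ∀ f : MvPowerSeries σ R, (∀ m : σ →₀ ℕ, (∀ j ∈ s, m j = 0) → coeff m f = 0) →
      f ∈ Ideal.span ((fun j : σ => (X j : MvPowerSeries σ R)) '' (s : Set σ)) := by
  induction s using Finset.induction_on with
  | empty =>
    intro f hf
    have : f = 0 := by
      ext m
      rw [hf m (by simp)]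
      simp
    rw [this]
    exact Submodule.zero_mem _
  | insert a t hat ih =>
    intro f hf
    have hsub : Ideal.span ((fun j : σ => (X j : MvPowerSeries σ R)) '' (t : Set σ)) ≤
        Ideal.span ((fun j : σ => (X j : MvPowerSeries σ R)) '' ((insert a t : Finset σ) : Set σ)) :=
      Ideal.span_mono (Set.image_mono (by simp))
    have hXa : (X a : MvPowerSeries σ R) ∈
        Ideal.span ((fun j : σ => (X j : MvPowerSeries σ R)) '' ((insert a t : Finset σ) : Set σ)) :=
      Ideal.subset_span ⟨a, by simp, rfl⟩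
    have hdecomp : f = (f - X a * divX a f) + X a * divX a f := by ring
    rw [hdecomp]
    refine Ideal.add_mem _ (hsub (ih _ ?_)) (Ideal.mul_mem_right _ _ hXa)
    intro m hm
    rw [map_sub, coeff_X_mul_divX]
    by_cases h : m a = 0
    · rw [if_pos h, sub_zero]
      apply hf
      intro j hj
      rcases Finset.mem_insert.mp hj with rfl | hj
      · exact h
      · exact hm j hj
    · rw [if_neg h, sub_self]

theorem mem_span_X_image_iff [DecidableEq σ] (s : Finset σ) (f : MvPowerSeries σ R) :
    f ∈ Ideal.span ((fun j : σ => (X j : MvPowerSeries σ R)) '' (s : Set σ)) ↔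
      ∀ m : σ →₀ ℕ, (∀ j ∈ s, m j = 0) → coeff m f = 0 :=
  ⟨fun hf m hm => coeff_eq_zero_of_mem_span_X (s : Set σ) hf m (fun j hj => hm j hj),
    mem_span_X_of_coeff_eq_zero s f⟩

end span

section xList

variable (𝒪 : Type) [CommRing 𝒪] (r : ℕ)

/-- the list of variables of `MvPowerSeries (Fin r) 𝒪`. -/
noncomputable def varList : List (MvPowerSeries (Fin r) 𝒪) :=
  List.ofFn (fun i : Fin r => (X i : MvPowerSeries (Fin r) 𝒪))

/-- the list `[X 0, …, X (r-1), C ϖ]`. -/
noncomputable def xList (ϖ : 𝒪) : List (MvPowerSeries (Fin r) 𝒪) :=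
  varList 𝒪 r ++ [C ϖ]

@[simp] theorem length_varList : (varList 𝒪 r).length = r := by
  simp [varList]

@[simp] theorem length_xList (ϖ : 𝒪) : (xList 𝒪 r ϖ).length = r + 1 := by
  simp [xList]

variable {𝒪 r}

theorem ofList_take_varList (i : ℕ) :
    Ideal.ofList ((varList 𝒪 r).take i) =
      Ideal.span ((fun j : Fin r => (X j : MvPowerSeries (Fin r) 𝒪)) ''
        ((Finset.univ.filter (fun j : Fin r => (j : ℕ) < i) : Finset (Fin r)) : Set (Fin r))) := by
  unfold Ideal.ofList
  congr 1
  ext g
  simp only [Set.mem_ofPred_eq, Set.mem_image, Finset.coe_filter, Finset.mem_univ, true_and]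
  rw [List.mem_take_iff_getElem]
  constructor
  · rintro ⟨k, hk, rfl⟩
    simp only [length_varList, lt_inf_iff] at hk
    refine ⟨⟨k, hk.2⟩, hk.1, ?_⟩
    simp [varList]
  · rintro ⟨j, hj, rfl⟩
    refine ⟨j, ?_, ?_⟩
    · simp only [length_varList, lt_inf_iff]
      exact ⟨hj, j.2⟩
    · simp [varList]

theorem ofList_varList :
    Ideal.ofList (varList 𝒪 r) =
      Ideal.span ((fun j : Fin r => (X j : MvPowerSeries (Fin r) 𝒪)) ''
        ((Finset.univ : Finset (Fin r)) : Set (Fin r))) := by
  have h := ofList_take_varList (𝒪 := 𝒪) (r := r) r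
  have h1 : (varList 𝒪 r).take r = varList 𝒪 r := by
    apply List.take_of_length_le
    simp
  have h2 : (Finset.univ.filter (fun j : Fin r => (j : ℕ) < r) : Finset (Fin r)) = Finset.univ := by
    ext j
    simp
  rw [h1, h2] at h
  exact h

theorem mem_ofList_varList_iff (f : MvPowerSeries (Fin r) 𝒪) :
    f ∈ Ideal.ofList (varList 𝒪 r) ↔ constantCoeff f = 0 := by
  rw [ofList_varList, mem_span_X_image_iff]
  constructor
  · intro h
    rw [← coeff_zero_eq_constantCoeff_apply]
    exact h 0 (by simp)
  · intro h m hm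
    have : m = 0 := by
      ext j
      simpa using hm j (Finset.mem_univ j)
    rw [this, coeff_zero_eq_constantCoeff_apply, h]

theorem isWeaklyRegular_varList :
    RingTheory.Sequence.IsWeaklyRegular (MvPowerSeries (Fin r) 𝒪) (varList 𝒪 r) := by
  rw [RingTheory.Sequence.isWeaklyRegular_iff_Fin]
  intro i
  rw [isSMulRegular_quotient_iff_mem_of_smul_mem]
  intro f hf
  rw [smul_eq_mul, Ideal.mul_top] at hf ⊢
  rw [ofList_take_varList, mem_span_X_image_iff] at hf ⊢
  intro m hm
  have hi : (i : ℕ) < r := by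
    have := i.2
    simpa using this
  have hget : (varList 𝒪 r)[i] = (X (⟨i, hi⟩ : Fin r) : MvPowerSeries (Fin r) 𝒪) := by
    rw [Fin.getElem_fin]
    unfold varList
    rw [List.getElem_ofFn]
  have key := hf (Finsupp.single (⟨i, hi⟩ : Fin r) 1 + m) (by
    intro j hj
    have hj' : (j : ℕ) < i := by simpa using hj
    have hne : (⟨i, hi⟩ : Fin r) ≠ j := by
      intro h
      rw [← h] at hj'
      simp at hj'
    simp [Finsupp.single_eq_of_ne' hne, hm j hj])
  rw [hget, smul_eq_mul, X_def, coeff_add_monomial_mul, one_mul] at key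
  exact key

theorem isWeaklyRegular_xList [IsDomain 𝒪] {ϖ : 𝒪} (hϖ : ϖ ≠ 0) :
    RingTheory.Sequence.IsWeaklyRegular (MvPowerSeries (Fin r) 𝒪) (xList 𝒪 r ϖ) := by
  unfold xList
  rw [RingTheory.Sequence.isWeaklyRegular_append_iff]
  refine ⟨isWeaklyRegular_varList, ?_⟩
  rw [RingTheory.Sequence.isWeaklyRegular_singleton_iff,
    isSMulRegular_quotient_iff_mem_of_smul_mem]
  intro f hf
  rw [smul_eq_mul, Ideal.mul_top] at hf ⊢
  rw [mem_ofList_varList_iff] at hf ⊢
  rw [smul_eq_mul, map_mul, constantCoeff_C] at hf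
  exact (mul_eq_zero.mp hf).resolve_left hϖ

theorem ofList_xList_eq_maximalIdeal [IsLocalRing 𝒪] {ϖ : 𝒪}
    (hϖ : IsLocalRing.maximalIdeal 𝒪 = Ideal.span {ϖ}) :
    Ideal.ofList (xList 𝒪 r ϖ) = IsLocalRing.maximalIdeal (MvPowerSeries (Fin r) 𝒪) := by
  unfold xList
  rw [Ideal.ofList_append, Ideal.ofList_singleton]
  apply le_antisymm
  · rw [sup_le_iff]
    constructor
    · intro f hf
      rw [mem_ofList_varList_iff] at hf
      rw [IsLocalRing.mem_maximalIdeal, mem_nonunits_iff, isUnit_iff_constantCoeff, hf]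
      exact not_isUnit_zero
    · rw [Ideal.span_singleton_le_iff_mem, IsLocalRing.mem_maximalIdeal, mem_nonunits_iff,
        isUnit_iff_constantCoeff, constantCoeff_C]
      have : ϖ ∈ IsLocalRing.maximalIdeal 𝒪 := by
        rw [hϖ]
        exact Ideal.mem_span_singleton_self ϖ
      exact (IsLocalRing.mem_maximalIdeal ϖ).mp this
  · intro f hf
    rw [IsLocalRing.mem_maximalIdeal, mem_nonunits_iff, isUnit_iff_constantCoeff] at hf
    have hf' : constantCoeff f ∈ IsLocalRing.maximalIdeal 𝒪 :=
      (IsLocalRing.mem_maximalIdeal _).mpr hf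
    rw [hϖ, Ideal.mem_span_singleton'] at hf'
    obtain ⟨u, hu⟩ := hf'
    have hdecomp : f = (f - C (constantCoeff f)) + C u * C ϖ := by
      rw [← map_mul, hu]
      ring
    rw [hdecomp]
    refine Ideal.add_mem _ (Ideal.mem_sup_left ?_) (Ideal.mem_sup_right ?_)
    · rw [mem_ofList_varList_iff, map_sub, constantCoeff_C, sub_self]
    · exact Ideal.mul_mem_left _ _ (Ideal.mem_span_singleton_self _)

theorem mem_maximalIdeal_of_mem_xList [IsLocalRing 𝒪] {ϖ : 𝒪}
    (hϖ : IsLocalRing.maximalIdeal 𝒪 = Ideal.span {ϖ}) :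
    ∀ a ∈ xList 𝒪 r ϖ, a ∈ IsLocalRing.maximalIdeal (MvPowerSeries (Fin r) 𝒪) := by
  intro a ha
  rw [← ofList_xList_eq_maximalIdeal hϖ]
  exact Ideal.subset_span ha

end xList

end Fermat.Agent.S57.H90
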