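import Mathlib
import Fermat.Prelude.Def_Algebra_PatchingDatum

/-!
# S57, concrete part (helper93)

For a patching level `L` with trivial relation ideal `J = ⊥`:
* `L.N` is a finite nontrivial module over `Λ = MvPowerSeries (Fin r) 𝒪`;
* `L.φ` maps the maximal ideal of `Λ` into itself;
* regular sequences on `Λ` are transported by `L.φ` to regular sequences on `L.N`;
* if `L.N` is free over `Λ`, then the three conclusions of S57 hold.
-/

set_option autoImplicit false

namespace Fermat.Agent.S57.H93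

open MvPowerSeries RingTheory.Sequence

variable {𝒪 : Type} [CommRing 𝒪] {r : ℕ} {R : Type} [CommRing R] [Algebra 𝒪 R]
  {M : Type} [AddCommGroup M] [Module R M]

/-- The `φ`-semilinear parametrisation `Λ^d → N`, `c ↦ ∑ φ (c i) • b i`. -/
noncomputable def param (L : Algebra.PatchingLevel 𝒪 r R M ⊥) :
    (Fin L.d → MvPowerSeries (Fin r) 𝒪) →+ L.N where
  toFun c := ∑ i, L.φ (c i) • L.b i
  map_zero' := by simp
  map_add' c c' := by
    simp [add_smul, Finset.sum_add_distrib]

lemma param_apply (L : Algebra.PatchingLevel 𝒪 r R M ⊥)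
    (c : Fin L.d → MvPowerSeries (Fin r) 𝒪) :
    param L c = ∑ i, L.φ (c i) • L.b i := rfl

lemma param_smul (L : Algebra.PatchingLevel 𝒪 r R M ⊥) (s : MvPowerSeries (Fin r) 𝒪)
    (c : Fin L.d → MvPowerSeries (Fin r) 𝒪) :
    param L (s • c) = L.φ s • param L c := by
  simp [param_apply, Finset.smul_sum, mul_smul]

lemma param_injective (L : Algebra.PatchingLevel 𝒪 r R M ⊥) :
    Function.Injective (param L) := by
  rw [injective_iff_map_eq_zero]
  intro c hc
  have := (L.b_rel c).mp hc
  funext i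
  simpa using this i

lemma param_surjective (L : Algebra.PatchingLevel 𝒪 r R M ⊥) :
    Function.Surjective (param L) := by
  intro x
  obtain ⟨c, hc⟩ := L.b_span x
  exact ⟨c, hc.symm⟩

/-- The additive equivalence `Λ^d ≃+ N`. -/
noncomputable def paramEquiv (L : Algebra.PatchingLevel 𝒪 r R M ⊥) :
    (Fin L.d → MvPowerSeries (Fin r) 𝒪) ≃+ L.N :=
  AddEquiv.ofBijective (param L) ⟨param_injective L, param_surjective L⟩

lemma paramEquiv_smul (L : Algebra.PatchingLevel 𝒪 r R M ⊥) (s : MvPowerSeries (Fin r) 𝒪)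
    (c : Fin L.d → MvPowerSeries (Fin r) 𝒪) :
    paramEquiv L (s • c) = L.φ s • paramEquiv L c :=
  param_smul L s c

/-- `N` is a finite `Λ`-module (generated by the `b i`). -/
theorem finite_N (L : Algebra.PatchingLevel 𝒪 r R M ⊥) :
    Module.Finite (MvPowerSeries (Fin r) 𝒪) L.N := by
  refine Module.Finite.of_surjective
    (Fintype.linearCombination (MvPowerSeries (Fin r) 𝒪) L.b) ?_
  intro x
  obtain ⟨c, hc⟩ := L.b_span x
  refine ⟨fun i => L.φ (c i), ?_⟩
  rw [hc, Fintype.linearCombination_apply]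

/-- `N` is nontrivial as soon as `M` is. -/
theorem nontrivial_N [Nontrivial M] (L : Algebra.PatchingLevel 𝒪 r R M ⊥) :
    Nontrivial L.N := by
  obtain ⟨m, hm⟩ := exists_ne (0 : M)
  obtain ⟨x, hx⟩ := L.π_surjective m
  refine ⟨⟨x, 0, ?_⟩⟩
  rintro rfl
  exact hm (by rw [← hx, map_zero])

/-- Any `𝒪`-algebra endomorphism of `Λ = 𝒪⟦X₁,…,X_r⟧` (over a local ring `𝒪`) is local:
it maps the maximal ideal into itself.  No continuity is needed. -/
theorem algHom_mem_maximalIdeal [IsLocalRing 𝒪]
    (φ : MvPowerSeries (Fin r) 𝒪 →ₐ[𝒪] MvPowerSeries (Fin r) 𝒪)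
    {f : MvPowerSeries (Fin r) 𝒪} (hf : f ∈ IsLocalRing.maximalIdeal (MvPowerSeries (Fin r) 𝒪)) :
    φ f ∈ IsLocalRing.maximalIdeal (MvPowerSeries (Fin r) 𝒪) := by
  rw [IsLocalRing.mem_maximalIdeal, mem_nonunits_iff] at hf ⊢
  intro hu
  have hu' : IsUnit (constantCoeff (φ f)) := MvPowerSeries.isUnit_iff_constantCoeff.mp hu
  obtain ⟨u, hu''⟩ := hu'
  -- `c = a⁻¹` where `a` is the constant coefficient of `φ f`
  set c : 𝒪 := ((u⁻¹ : 𝒪ˣ) : 𝒪) with hc
  have hf0 : ¬ IsUnit (constantCoeff f) := fun h =>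
    hf (MvPowerSeries.isUnit_iff_constantCoeff.mpr h)
  have hcf0 : c * constantCoeff f ∈ nonunits 𝒪 := by
    rw [mem_nonunits_iff]
    intro h
    exact hf0 (isUnit_of_mul_isUnit_right h)
  have hunit : IsUnit (1 - C c * f : MvPowerSeries (Fin r) 𝒪) := by
    rw [MvPowerSeries.isUnit_iff_constantCoeff]
    simpa using IsLocalRing.isUnit_one_sub_self_of_mem_nonunits _ hcf0
  have hφC : φ (C c) = C c := by
    have h1 : (algebraMap 𝒪 (MvPowerSeries (Fin r) 𝒪)) c = C c := by
      rw [MvPowerSeries.algebraMap_apply]; rfl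
    rw [← h1, φ.commutes]
  have hunit' : IsUnit (φ (1 - C c * f)) := hunit.map φ
  rw [map_sub, map_one, map_mul, hφC, MvPowerSeries.isUnit_iff_constantCoeff] at hunit'
  have h0 : constantCoeff (1 - C c * φ f : MvPowerSeries (Fin r) 𝒪) = 0 := by
    simp only [map_sub, map_one, map_mul, constantCoeff_C, ← hu'', hc]
    simp
  rw [h0] at hunit'
  exact not_isUnit_zero hunit'

/-- A weakly regular sequence on `Λ` is transported by `φ` to a weakly regular sequence on `N`. -/
theorem isWeaklyRegular_map_phi (L : Algebra.PatchingLevel 𝒪 r R M ⊥)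
    {x : List (MvPowerSeries (Fin r) 𝒪)}
    (hx : IsWeaklyRegular (MvPowerSeries (Fin r) 𝒪) x) :
    IsWeaklyRegular L.N (x.map L.φ) := by
  have h1 : IsWeaklyRegular (TensorProduct (MvPowerSeries (Fin r) 𝒪) (MvPowerSeries (Fin r) 𝒪)
      (Fin L.d → MvPowerSeries (Fin r) 𝒪)) x :=
    hx.isWeaklyRegular_rTensor
  have h2 : IsWeaklyRegular (Fin L.d → MvPowerSeries (Fin r) 𝒪) x :=
    ((TensorProduct.lid (MvPowerSeries (Fin r) 𝒪)
      (Fin L.d → MvPowerSeries (Fin r) 𝒪)).isWeaklyRegular_congr x).mp h1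
  refine ((paramEquiv L).isWeaklyRegular_congr ?_).mp h2
  exact List.forall₂_map_right_iff.mpr
    (List.forall₂_same.mpr fun s _ c => paramEquiv_smul L s c)

lemma repr_mem_of_mem_smul_top {A N ι : Type*} [CommRing A] [AddCommGroup N] [Module A N]
    (B : Module.Basis ι A N) (I : Ideal A) {x : N} (hx : x ∈ I • (⊤ : Submodule A N)) (j : ι) :
    B.repr x j ∈ I := by
  refine Submodule.smul_induction_on hx ?_ ?_
  · intro a ha n _
    simp only [map_smul, Finsupp.smul_apply, smul_eq_mul]
    exact I.mul_mem_right _ ha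
  · intro x y hx hy
    simp only [map_add, Finsupp.add_apply]
    exact I.add_mem hx hy

lemma pi_finsupp_sum (L : Algebra.PatchingLevel 𝒪 r R M ⊥) {ι : Type*}
    (B : ι → L.N) (c : ι →₀ MvPowerSeries (Fin r) 𝒪) :
    L.π (c.sum fun j a => a • B j) = c.sum fun j a => L.ψ a • L.π (B j) := by
  simp only [Finsupp.sum, map_sum, L.π_smul]

/-- **Assembly**: if `N` is free over `Λ`, the three conclusions of S57 hold. -/
theorem result_of_free [Nontrivial M] (L : Algebra.PatchingLevel 𝒪 r R M ⊥)
    (hfree : Module.Free (MvPowerSeries (Fin r) 𝒪) L.N) :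
    Module.Free R M ∧ Module.annihilator R M = ⊥ ∧
      RingHom.ker L.ψ = Ideal.span (Set.range fun i : Fin r => L.φ (MvPowerSeries.X i)) := by
  classical
  set I : Ideal (MvPowerSeries (Fin r) 𝒪) :=
    Ideal.span (Set.range fun i : Fin r => L.φ (MvPowerSeries.X i)) with hI
  have hIker : I ≤ RingHom.ker L.ψ := by
    rw [hI, Ideal.span_le]
    rintro _ ⟨i, rfl⟩
    exact L.ψ_φ_X i
  let B := Module.Free.chooseBasis (MvPowerSeries (Fin r) 𝒪) L.N
  have hπ0 : ∀ x, L.π x = 0 → ∀ j, B.repr x j ∈ I := fun x hx j =>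
    repr_mem_of_mem_smul_top B I ((L.ker_π x).mp hx) j
  -- linear independence of the images of the basis vectors
  have hli : LinearIndependent R (fun j => L.π (B j)) := by
    rw [linearIndependent_iff]
    intro l hl
    -- lift the coefficients along `ψ`
    let g : R → MvPowerSeries (Fin r) 𝒪 := fun a => if a = 0 then 0 else Function.surjInv L.ψ_surjective a
    have hg0 : g 0 = 0 := by simp [g]
    have hg : ∀ a, L.ψ (g a) = a := by
      intro a
      by_cases ha : a = 0
      · simp [g, ha]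
      · simp only [g, ha, if_false]
        exact Function.surjInv_eq L.ψ_surjective a
    let c : _ →₀ MvPowerSeries (Fin r) 𝒪 := l.mapRange g hg0
    have hsum : L.π (c.sum fun j a => a • B j) = 0 := by
      rw [pi_finsupp_sum, ← hl, Finsupp.linearCombination_apply]
      rw [Finsupp.sum_mapRange_index (by intro j; simp)]
      simp only [hg]
    have hrepr : B.repr (c.sum fun j a => a • B j) = c := by
      rw [← Finsupp.linearCombination_apply, B.repr_linearCombination]
    ext j
    have hj := hπ0 _ hsum j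
    rw [hrepr] at hj
    have : L.ψ (c j) = 0 := hIker hj
    simpa [c, hg] using this
  have hsp : ⊤ ≤ Submodule.span R (Set.range fun j => L.π (B j)) := by
    rintro m -
    obtain ⟨x, rfl⟩ := L.π_surjective m
    rw [← B.linearCombination_repr x, Finsupp.linearCombination_apply, pi_finsupp_sum]
    refine Submodule.sum_mem _ fun j _ => Submodule.smul_mem _ _ (Submodule.subset_span ⟨j, rfl⟩)
  have hfreeM : Module.Free R M := Module.Free.of_basis (Module.Basis.mk hli hsp)
  refine ⟨hfreeM, Module.annihilator_eq_bot.mpr inferInstance, le_antisymm ?_ hIker⟩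
  intro f hf
  have := nontrivial_N L
  obtain ⟨j₀⟩ : Nonempty (Module.Free.ChooseBasisIndex (MvPowerSeries (Fin r) 𝒪) L.N) :=
    B.index_nonempty
  have h0 : L.π (f • B j₀) = 0 := by
    rw [L.π_smul, RingHom.mem_ker.mp hf, zero_smul]
  have := hπ0 _ h0 j₀
  simpa using this

end Fermat.Agent.S57.H93
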