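import Mathlib

/-!
# S57 helper (helper73): freeness from a long regular sequence over a regular local ring

`free_of_regular_of_isFiniteLength`: `P` noetherian local, maximal ideal generated by a
`P`-regular sequence `x`; `N` a finite `P`-module with a weakly regular sequence `y` inside the
maximal ideal, `x.length ≤ y.length`, and `N / yN` of finite length. Then `N` is free.
Proof: projective dimension (Mathlib `ModuleCat.projectiveDimension_quotient_eq_*`).
-/

namespace Fermat.Agent.S57.H73

open CategoryTheory Abelian IsLocalRing Module RingTheory.Sequence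

universe u

section

variable {P : Type u} [CommRing P] [IsLocalRing P]

/-- Over a local ring, if the residue field has projective dimension `< n`, so does every module
of finite length. -/
theorem hasProjectiveDimensionLT_of_isFiniteLength (n : ℕ)
    (hk : HasProjectiveDimensionLT (ModuleCat.of P (P ⧸ maximalIdeal P)) n)
    (T : Type u) [AddCommGroup T] [Module P T] (hT : IsFiniteLength P T) :
    HasProjectiveDimensionLT (ModuleCat.of P T) n := by
  induction hT with
  | of_subsingleton =>
    rename_i M _ _ _
    have hz : Limits.IsZero (ModuleCat.of P M) := ModuleCat.isZero_of_subsingleton _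
    have := hz.hasProjectiveDimensionLT_zero
    exact hasProjectiveDimensionLT_of_ge (ModuleCat.of P M) 0 n (Nat.zero_le n)
  | of_simple_quotient h ih =>
    rename_i M _ _ N hs
    -- the short exact sequence `0 → N → M → M ⧸ N → 0`
    have hsurj : Function.Surjective (Submodule.mkQ N) := Submodule.mkQ_surjective N
    let S : ShortComplex (ModuleCat.{u} P) := (Submodule.mkQ N).shortComplexKer
    have hS : S.ShortExact := LinearMap.shortExact_shortComplexKer hsurj
    -- `S.X₁ ≅ N`
    have e₁ : (LinearMap.ker (Submodule.mkQ N)) ≃ₗ[P] N :=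
      LinearEquiv.ofEq _ _ (Submodule.ker_mkQ N)
    have h₁ : HasProjectiveDimensionLT S.X₁ n :=
      hasProjectiveDimensionLT_of_iso (e₁.symm.toModuleIso) n
    -- `S.X₃ = M ⧸ N ≅ P ⧸ 𝔪`
    obtain ⟨I, hI, ⟨e₃⟩⟩ := isSimpleModule_iff_quot_maximal.mp hs
    have hIm : I = maximalIdeal P := IsLocalRing.eq_maximalIdeal hI
    subst hIm
    have h₃ : HasProjectiveDimensionLT S.X₃ n :=
      hasProjectiveDimensionLT_of_iso (e₃.symm.toModuleIso) n
    exact hS.hasProjectiveDimensionLT_X₂ n h₁ h₃

end

section

variable {P : Type u} [CommRing P] [IsLocalRing P] [IsNoetherianRing P]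

/-- If the maximal ideal is generated by a `P`-regular sequence `x`, the residue field has
projective dimension `≤ x.length`. -/
theorem hasProjectiveDimensionLT_residue (x : List P)
    (hx : Ideal.ofList x = maximalIdeal P) (hxP : IsWeaklyRegular P x) :
    HasProjectiveDimensionLT (ModuleCat.of P (P ⧸ maximalIdeal P)) (x.length + 1) := by
  have hxreg : IsRegular P x := by
    refine ⟨hxP, ?_⟩
    rw [hx, smul_eq_mul, Ideal.mul_top]
    exact (Ideal.IsMaximal.ne_top inferInstance).symm
  have h1 := ModuleCat.projectiveDimension_quotient_eq_length.{u} x hxreg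
  have e : Shrink.{u} (P ⧸ Ideal.ofList x) ≃ₗ[P] (P ⧸ maximalIdeal P) :=
    (Shrink.linearEquiv P _).trans (Submodule.quotEquivOfEq _ _ hx)
  have h2 : projectiveDimension (ModuleCat.of P (P ⧸ maximalIdeal P)) = x.length := by
    rw [← projectiveDimension_eq_of_iso e.toModuleIso]
    exact h1
  have h3 : projectiveDimension (ModuleCat.of P (P ⧸ maximalIdeal P)) ≤ x.length := h2.le
  exact (projectiveDimension_le_iff _ _).mp h3

/-- **Freeness from a long regular sequence** (finite-length version). -/
theorem free_of_regular_of_isFiniteLength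
    {N : Type u} [AddCommGroup N] [Module P N] [Module.Finite P N]
    (x : List P) (hx : Ideal.ofList x = maximalIdeal P) (hxP : IsWeaklyRegular P x)
    (y : List P) (hy : ∀ a ∈ y, a ∈ maximalIdeal P) (hyN : IsWeaklyRegular N y)
    (hlen : x.length ≤ y.length)
    (hfl : IsFiniteLength P (N ⧸ Ideal.ofList y • (⊤ : Submodule P N))) :
    Module.Free P N := by
  rcases subsingleton_or_nontrivial N with hN | hN
  · exact Module.Free.of_subsingleton P N
  -- pd (N / yN) ≤ x.length
  have hT : HasProjectiveDimensionLT
      (ModuleCat.of P (N ⧸ Ideal.ofList y • (⊤ : Submodule P N))) (x.length + 1) :=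
    hasProjectiveDimensionLT_of_isFiniteLength (x.length + 1)
      (hasProjectiveDimensionLT_residue x hx hxP) _ hfl
  have hT' : projectiveDimension
      (ModuleCat.of P (N ⧸ Ideal.ofList y • (⊤ : Submodule P N))) ≤ x.length :=
    (projectiveDimension_le_iff _ _).mpr hT
  -- pd (N / yN) = pd N + y.length
  have hpd := ModuleCat.projectiveDimension_quotient_eq_add_length_of_isWeaklyRegular
    (ModuleCat.of P N) y hyN hy
  rw [hpd] at hT'
  have h0 : projectiveDimension (ModuleCat.of P N) + (y.length : ℕ) ≤ ((0 : ℕ) : WithBot ℕ∞) + (y.length : ℕ) := by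
    refine hT'.trans ?_
    rw [Nat.cast_zero, zero_add]
    exact_mod_cast hlen
  have h1 : projectiveDimension (ModuleCat.of P N) ≤ ((0 : ℕ) : WithBot ℕ∞) :=
    (ENat.WithBot.add_le_add_natCast_right_iff).mp h0
  have h2 : HasProjectiveDimensionLE (ModuleCat.of P N) 0 := (projectiveDimension_le_iff _ _).mp h1
  have h3 : Projective (ModuleCat.of P N) :=
    (projective_iff_hasProjectiveDimensionLE_zero (X := ModuleCat.of P N)).mpr h2
  have h4 : Module.Projective P N := (IsProjective.iff_projective (R := P) N).mpr h3
  exact Module.free_of_flat_of_isLocalRing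

end

end Fermat.Agent.S57.H73
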